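import Mathlib

/-!
# PROJECT U (S34): functions on the annulus of a node, coefficient level (helper29)

Let `W` be a discrete valuation ring, `c ∈ W` a nonzero nonunit and `R` a `W`-algebra which
"looks like" `W⟦ξ, η⟧ / (ξ η - c)`: every element `g` has a two-sided coefficient sequence
`coeff g : ℤ → W` (`g = ∑_{i ≥ 0} a_i ξ^i + ∑_{j ≥ 1} b_j η^j`, `coeff g i = a_i` for `i ≥ 0` and
`coeff g (-j) = b_j c^j`), multiplication by `ξ` shifts the sequence and multiplication by `η`
shifts it the other way and multiplies by `c`.  This is packaged in the structure `NodeCoeff`.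

With `e := v(c)` and `φ(r) := min_i (v(coeff g i) + i r)` for `0 ≤ r ≤ e` (the Newton polygon of
`g` on the annulus), we prove, on coefficient sequences only:

* `exists_isLeastMinL`, `exists_isGreatestMinR` : the smallest index `n₀` attaining `φ(0)` and the
  largest index `n₁` attaining `φ(e)` exist for `g ≠ 0`;
* `(R1)` `le_of_isMinR_of_isMinL` : `n₁ ≤ n₀` (concavity of the Newton polygon);
* `(R2)` `exists_eq_monomial_mul_one_add` : if one index `n` attains both minima (equivalently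
  `n₀ = n₁`), then `g = a ξ^n (1 + h)` (resp. `b η^{-n} (1 + h)`) with `coeff h 0 = 0`, and
  `mem_span_of_coeff_zero` : such an `h` lies in the ideal `(ξ, η)`; hence `1 + h` is a unit as soon
  as `ξ, η` are in the Jacobson radical (`isUnit_one_add`);
* `(R3)` `isLeastMinL_xi_sub`, `isGreatestMinR_xi_sub` : `n₀(ξ - z) = 1`, `n₁(ξ - z) = 0` for
  `0 < v(z) < e`;
* `(R3')` `exists_mul_eq_of_eval_eq_zero` : division by a linear factor at a `W`-point
  `ev : R → W`, `z = ev ξ`: if `ev g = 0` then `z g = (ξ - z) g₁` with `g₁ ∈ R` (only `z g`, not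
  `g`, is divisible: `ξ - z` vanishes to the order `v(z)` along the second branch).
-/

set_option autoImplicit false

namespace Fermat.Agent.S34.Annulus.Unit

open IsDiscreteValuationRing

/-- A `W`-algebra `R` with two-sided coefficient sequences behaving like those of
`W⟦ξ, η⟧ / (ξ η - c)`. -/
structure NodeCoeff {W : Type*} [CommRing W] (c : W) (R : Type*) [CommRing R] [Algebra W R] where
  /-- the coordinate on the first branch -/
  xi : R
  /-- the coordinate on the second branch -/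
  eta : R
  mul_eq : xi * eta = algebraMap W R c
  /-- the two-sided coefficient sequence -/
  coeff : R → ℤ → W
  coeff_add : ∀ (g g' : R) (i : ℤ), coeff (g + g') i = coeff g i + coeff g' i
  coeff_smul : ∀ (w : W) (g : R) (i : ℤ), coeff (algebraMap W R w * g) i = w * coeff g i
  coeff_one : ∀ i : ℤ, coeff 1 i = if i = 0 then 1 else 0
  coeff_xi_mul : ∀ (g : R) (i : ℤ), coeff (xi * g) i = coeff g (i - 1)
  coeff_eta_mul : ∀ (g : R) (i : ℤ), coeff (eta * g) i = c * coeff g (i + 1)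
  dvd_coeff : ∀ (g : R) (j : ℕ), c ^ j ∣ coeff g (-(j : ℤ))
  ext : ∀ g g' : R, coeff g = coeff g' → g = g'
  surj : ∀ α : ℤ → W, (∀ j : ℕ, c ^ j ∣ α (-(j : ℤ))) → ∃ g : R, coeff g = α

namespace NodeCoeff

section Basic

variable {W : Type*} [CommRing W] {c : W} {R : Type*} [CommRing R] [Algebra W R]
  (D : NodeCoeff c R)

theorem coeff_zero (i : ℤ) : D.coeff 0 i = 0 := by
  have h := D.coeff_add 0 0 i
  rw [add_zero] at h
  have h2 : D.coeff 0 i + 0 = D.coeff 0 i + D.coeff 0 i := by rw [add_zero]; exact h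
  exact (add_left_cancel h2).symm

theorem coeff_neg (g : R) (i : ℤ) : D.coeff (-g) i = -D.coeff g i := by
  have h := D.coeff_add g (-g) i
  rw [add_neg_cancel, coeff_zero] at h
  exact eq_neg_of_add_eq_zero_right h.symm

theorem coeff_sub (g g' : R) (i : ℤ) : D.coeff (g - g') i = D.coeff g i - D.coeff g' i := by
  rw [sub_eq_add_neg, D.coeff_add, coeff_neg, sub_eq_add_neg]

theorem coeff_algebraMap (w : W) (i : ℤ) :
    D.coeff (algebraMap W R w) i = if i = 0 then w else 0 := by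
  have h := D.coeff_smul w 1 i
  rw [mul_one, D.coeff_one] at h
  rw [h]
  split_ifs <;> simp

theorem coeff_xi (i : ℤ) : D.coeff D.xi i = if i = 1 then 1 else 0 := by
  have h := D.coeff_xi_mul 1 i
  rw [mul_one, D.coeff_one] at h
  rw [h]
  by_cases hi : i = 1
  · rw [if_pos hi, if_pos (by omega)]
  · rw [if_neg hi, if_neg (by omega)]

theorem coeff_xi_pow_mul (m : ℕ) (g : R) (i : ℤ) :
    D.coeff (D.xi ^ m * g) i = D.coeff g (i - m) := by
  induction m generalizing i with
  | zero => simp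
  | succ m ih =>
    rw [pow_succ', mul_assoc, D.coeff_xi_mul, ih]
    have e1 : i - 1 - (m : ℤ) = i - ((m + 1 : ℕ) : ℤ) := by push_cast; ring
    rw [e1]

theorem coeff_eta_pow_mul (m : ℕ) (g : R) (i : ℤ) :
    D.coeff (D.eta ^ m * g) i = c ^ m * D.coeff g (i + m) := by
  induction m generalizing i with
  | zero => simp
  | succ m ih =>
    rw [pow_succ', mul_assoc, D.coeff_eta_mul, ih, pow_succ', mul_assoc]
    have e1 : i + 1 + (m : ℤ) = i + ((m + 1 : ℕ) : ℤ) := by push_cast; ring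
    rw [e1]

theorem exists_coeff_ne_zero {g : R} (hg : g ≠ 0) : ∃ i, D.coeff g i ≠ 0 := by
  by_contra h
  push Not at h
  apply hg
  apply D.ext
  funext i
  rw [h i, coeff_zero]

/-- an element with vanishing constant coefficient lies in the ideal `(ξ, η)` -/
theorem mem_span_of_coeff_zero {h : R} (h0 : D.coeff h 0 = 0) :
    h ∈ Ideal.span ({D.xi, D.eta} : Set R) := by
  classical
  -- the positive part
  obtain ⟨h1, hh1⟩ := D.surj (fun i => if 0 ≤ i then D.coeff h (i + 1) else 0) (by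
    intro j
    by_cases hj : j = 0
    · subst hj; simp
    · have : ¬ (0 : ℤ) ≤ -(j : ℤ) := by omega
      simp only [this, if_false]
      exact dvd_zero _)
  -- the negative part
  have hq : ∀ j : ℕ, ∃ r : W, D.coeff h (-((j + 1 : ℕ) : ℤ)) = c ^ (j + 1) * r :=
    fun j => D.dvd_coeff h (j + 1)
  choose r hr using hq
  obtain ⟨h2, hh2⟩ := D.surj (fun i => if i ≤ 0 then c ^ (-i).toNat * r (-i).toNat else 0) (by
    intro j
    have : -(j : ℤ) ≤ 0 := by omega
    simp only [this, if_true, neg_neg, Int.toNat_natCast]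
    exact Dvd.intro _ rfl)
  have key : h = D.xi * h1 + D.eta * h2 := by
    apply D.ext
    funext i
    rw [D.coeff_add, D.coeff_xi_mul, D.coeff_eta_mul, hh1, hh2]
    rcases lt_trichotomy i 0 with hi | hi | hi
    · have h1' : ¬ (0 : ℤ) ≤ i - 1 := by omega
      have h2' : i + 1 ≤ 0 := by omega
      simp only [h1', if_false, h2', if_true, zero_add]
      obtain ⟨j, rfl⟩ : ∃ j : ℕ, i = -((j + 1 : ℕ) : ℤ) := ⟨(-i - 1).toNat, by omega⟩
      rw [hr j]
      have e1 : (-(-((j + 1 : ℕ) : ℤ) + 1)).toNat = j := by omega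
      rw [e1, pow_succ]
      ring
    · subst hi
      have h1' : ¬ (0 : ℤ) ≤ 0 - 1 := by omega
      have h2' : ¬ ((0 : ℤ) + 1 ≤ 0) := by omega
      simp only [h1', if_false, h2', mul_zero, add_zero]
      exact h0
    · have h1' : (0 : ℤ) ≤ i - 1 := by omega
      have h2' : ¬ (i + 1 ≤ 0) := by omega
      simp only [h1', if_true, h2', if_false, mul_zero, add_zero]
      congr 1
      ring
  rw [key]
  exact Ideal.add_mem _ (Ideal.mul_mem_right _ _ (Ideal.subset_span (by simp)))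
    (Ideal.mul_mem_right _ _ (Ideal.subset_span (by simp)))

/-- `1 + h` is a unit when `coeff h 0 = 0` and `ξ, η` lie in the Jacobson radical of `R`
(e.g. `R` local with `ξ, η` in the maximal ideal). -/
theorem isUnit_one_add
    (hxi : D.xi ∈ Ideal.jacobson (⊥ : Ideal R)) (heta : D.eta ∈ Ideal.jacobson (⊥ : Ideal R))
    {h : R} (h0 : D.coeff h 0 = 0) : IsUnit (1 + h) := by
  have hmem : h ∈ Ideal.jacobson (⊥ : Ideal R) := by
    have hle : Ideal.span ({D.xi, D.eta} : Set R) ≤ Ideal.jacobson (⊥ : Ideal R) := by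
      rw [Ideal.span_le]
      intro x hx
      rcases hx with rfl | rfl
      · exact hxi
      · exact heta
    exact hle (D.mem_span_of_coeff_zero h0)
  have := (Ideal.mem_jacobson_bot.mp hmem) 1
  rw [mul_one, add_comm] at this
  exact this

end Basic

end NodeCoeff

/-! ### integer valued order on a DVR -/

section OrdZ

variable {W : Type*} [CommRing W] [IsDomain W] [IsDiscreteValuationRing W]

/-- the order of an element of a DVR, as an integer (junk value `0` at `0`) -/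
noncomputable def ordZ (w : W) : ℤ := ((addVal W w).toNat : ℤ)

theorem ordZ_nonneg (w : W) : 0 ≤ ordZ w := Int.natCast_nonneg _

theorem addVal_ne_top_of_ne_zero {w : W} (hw : w ≠ 0) : addVal W w ≠ ⊤ :=
  fun h => hw (addVal_eq_top_iff.mp h)

theorem ordZ_one : ordZ (1 : W) = 0 := by
  unfold ordZ
  rw [addVal_one]
  rfl

theorem ordZ_mul {a b : W} (ha : a ≠ 0) (hb : b ≠ 0) : ordZ (a * b) = ordZ a + ordZ b := by
  unfold ordZ
  rw [addVal_mul, ENat.toNat_add (addVal_ne_top_of_ne_zero ha) (addVal_ne_top_of_ne_zero hb)]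
  push_cast
  rfl

theorem ordZ_pow {a : W} (ha : a ≠ 0) (n : ℕ) : ordZ (a ^ n) = n * ordZ a := by
  induction n with
  | zero => simp [ordZ_one]
  | succ n ih =>
    rw [pow_succ, ordZ_mul (pow_ne_zero n ha) ha, ih]
    push_cast
    ring

theorem ordZ_neg (a : W) : ordZ (-a) = ordZ a := by
  unfold ordZ
  rw [AddValuation.map_neg]

theorem dvd_iff_ordZ_le {a b : W} (ha : a ≠ 0) (hb : b ≠ 0) : a ∣ b ↔ ordZ a ≤ ordZ b := by
  rw [← addVal_le_iff_dvd]
  unfold ordZ
  rw [Int.ofNat_le]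
  conv_lhs => rw [← ENat.natCast_toNat (addVal_ne_top_of_ne_zero ha),
    ← ENat.natCast_toNat (addVal_ne_top_of_ne_zero hb)]
  exact Nat.cast_le

theorem one_le_ordZ {a : W} (ha : a ≠ 0) (hu : ¬ IsUnit a) : 1 ≤ ordZ a := by
  unfold ordZ
  have h0 : addVal W a ≠ 0 := fun h => hu (addVal_eq_zero_iff.mp h)
  have h1 : (addVal W a).toNat ≠ 0 := by
    rw [Ne, ENat.toNat_eq_zero]
    push Not
    exact ⟨h0, addVal_ne_top_of_ne_zero ha⟩
  omega

theorem ordZ_eq_zero_of_isUnit {a : W} (hu : IsUnit a) : ordZ a = 0 := by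
  unfold ordZ
  rw [addVal_eq_zero_iff.mpr hu]
  rfl

/-- if `z z' = c` with `z'` a nonunit then `v(z) < v(c)` -/
theorem ordZ_lt_of_mul_eq {z z' c : W} (h : z * z' = c) (hc : c ≠ 0) (hz' : ¬ IsUnit z') :
    ordZ z < ordZ c := by
  have hz0 : z ≠ 0 := by rintro rfl; exact hc (by rw [← h, zero_mul])
  have hz'0 : z' ≠ 0 := by rintro rfl; exact hc (by rw [← h, mul_zero])
  rw [← h, ordZ_mul hz0 hz'0]
  have := one_le_ordZ hz'0 hz'
  omega

end OrdZ

namespace NodeCoeff

section Newton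

variable {W : Type*} [CommRing W] [IsDomain W] [IsDiscreteValuationRing W] {c : W}
  {R : Type*} [CommRing R] [Algebra W R] (D : NodeCoeff c R)

/-- `v(α_i) + i e ≥ 0` for every nonzero coefficient -/
theorem ordZ_coeff_add_nonneg (hc : c ≠ 0) (g : R) (i : ℤ) (hi : D.coeff g i ≠ 0) :
    0 ≤ ordZ (D.coeff g i) + i * ordZ c := by
  rcases le_or_gt 0 i with h | h
  · have h1 := ordZ_nonneg (D.coeff g i)
    have h2 := ordZ_nonneg c
    positivity
  · obtain ⟨j, rfl⟩ : ∃ j : ℕ, i = -(j : ℤ) := ⟨(-i).toNat, by omega⟩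
    have hd := D.dvd_coeff g j
    rw [dvd_iff_ordZ_le (pow_ne_zero j hc) hi, ordZ_pow hc] at hd
    linarith

/-- `n` attains `v₀(g) = min_i v(α_i)` -/
def IsMinL (g : R) (n : ℤ) : Prop :=
  D.coeff g n ≠ 0 ∧ ∀ i, D.coeff g i ≠ 0 → ordZ (D.coeff g n) ≤ ordZ (D.coeff g i)

/-- `n` attains `v_e(g) = min_i (v(α_i) + i e)` -/
def IsMinR (g : R) (n : ℤ) : Prop :=
  D.coeff g n ≠ 0 ∧ ∀ i, D.coeff g i ≠ 0 →
    ordZ (D.coeff g n) + n * ordZ c ≤ ordZ (D.coeff g i) + i * ordZ c

/-- `n = n₀(g)`, the smallest index attaining `v₀(g)` -/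
def IsLeastMinL (g : R) (n : ℤ) : Prop := D.IsMinL g n ∧ ∀ m, D.IsMinL g m → n ≤ m

/-- `n = n₁(g)`, the largest index attaining `v_e(g)` -/
def IsGreatestMinR (g : R) (n : ℤ) : Prop := D.IsMinR g n ∧ ∀ m, D.IsMinR g m → m ≤ n

theorem exists_isLeastMinL (hc : c ≠ 0) (hcu : ¬ IsUnit c) {g : R} (hg : g ≠ 0) :
    ∃ n, D.IsLeastMinL g n := by
  obtain ⟨i₀, hi₀⟩ := D.exists_coeff_ne_zero hg
  obtain ⟨x, ⟨ix, hix, hxv⟩, hxmin⟩ := Int.exists_least_of_bdd
    (P := fun x => ∃ i, D.coeff g i ≠ 0 ∧ ordZ (D.coeff g i) = x)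
    ⟨0, fun z hz => by obtain ⟨i, -, hz⟩ := hz; rw [← hz]; exact ordZ_nonneg _⟩
    ⟨_, i₀, hi₀, rfl⟩
  have hmin : ∀ i, D.coeff g i ≠ 0 → x ≤ ordZ (D.coeff g i) := fun i hi => hxmin _ ⟨i, hi, rfl⟩
  have hx0 : 0 ≤ x := by rw [← hxv]; exact ordZ_nonneg _
  have he := one_le_ordZ hc hcu
  obtain ⟨n, ⟨hn0, hnx⟩, hnmin⟩ := Int.exists_least_of_bdd
    (P := fun i => D.coeff g i ≠ 0 ∧ ordZ (D.coeff g i) = x)
    ⟨-x, by
      rintro i ⟨hi, hix'⟩
      have h1 := D.ordZ_coeff_add_nonneg hc g i hi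
      rw [hix'] at h1
      by_contra hlt
      push Not at hlt
      have h2 : 0 ≤ (-i) * (ordZ c - 1) := mul_nonneg (by linarith) (by linarith)
      nlinarith⟩
    ⟨ix, hix, hxv⟩
  refine ⟨n, ⟨hn0, fun i hi => by rw [hnx]; exact hmin i hi⟩, fun m hm => hnmin m ⟨hm.1, ?_⟩⟩
  refine le_antisymm ?_ (hmin m hm.1)
  rw [← hxv]
  exact hm.2 ix hix

theorem exists_isGreatestMinR (hc : c ≠ 0) (hcu : ¬ IsUnit c) {g : R} (hg : g ≠ 0) :
    ∃ n, D.IsGreatestMinR g n := by
  obtain ⟨i₀, hi₀⟩ := D.exists_coeff_ne_zero hg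
  obtain ⟨x, ⟨ix, hix, hxv⟩, hxmin⟩ := Int.exists_least_of_bdd
    (P := fun x => ∃ i, D.coeff g i ≠ 0 ∧ ordZ (D.coeff g i) + i * ordZ c = x)
    ⟨0, fun z hz => by
      obtain ⟨i, hi, hz⟩ := hz
      rw [← hz]
      exact D.ordZ_coeff_add_nonneg hc g i hi⟩
    ⟨_, i₀, hi₀, rfl⟩
  have hmin : ∀ i, D.coeff g i ≠ 0 → x ≤ ordZ (D.coeff g i) + i * ordZ c :=
    fun i hi => hxmin _ ⟨i, hi, rfl⟩
  have hx0 : 0 ≤ x := by rw [← hxv]; exact D.ordZ_coeff_add_nonneg hc g ix hix
  have he := one_le_ordZ hc hcu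
  obtain ⟨n, ⟨hn0, hnx⟩, hnmax⟩ := Int.exists_greatest_of_bdd
    (P := fun i => D.coeff g i ≠ 0 ∧ ordZ (D.coeff g i) + i * ordZ c = x)
    ⟨x, by
      rintro i ⟨hi, hix'⟩
      have h1 := ordZ_nonneg (D.coeff g i)
      by_contra hlt
      push Not at hlt
      have h2 : 0 ≤ i * (ordZ c - 1) := mul_nonneg (by linarith) (by linarith)
      nlinarith⟩
    ⟨ix, hix, hxv⟩
  refine ⟨n, ⟨hn0, fun i hi => by rw [hnx]; exact hmin i hi⟩, fun m hm => hnmax m ⟨hm.1, ?_⟩⟩
  refine le_antisymm ?_ (hmin m hm.1)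
  rw [← hxv]
  exact hm.2 ix hix

/-- **(R1), concavity of the Newton polygon**: `n₁(g) ≤ n₀(g)` -/
theorem le_of_isMinR_of_isMinL (hc : c ≠ 0) (hcu : ¬ IsUnit c) {g : R} {n₀ n₁ : ℤ}
    (h₀ : D.IsMinL g n₀) (h₁ : D.IsMinR g n₁) : n₁ ≤ n₀ := by
  have he := one_le_ordZ hc hcu
  have hL := h₀.2 n₁ h₁.1
  have hR := h₁.2 n₀ h₀.1
  by_contra hlt
  push Not at hlt
  have h2 : 0 < (n₁ - n₀) * ordZ c := mul_pos (by linarith) (by linarith)
  nlinarith

theorem IsLeastMinL.unique {g : R} {n m : ℤ} (hn : D.IsLeastMinL g n) (hm : D.IsLeastMinL g m) :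
    n = m :=
  le_antisymm (hn.2 m hm.1) (hm.2 n hn.1)

theorem IsGreatestMinR.unique {g : R} {n m : ℤ} (hn : D.IsGreatestMinR g n)
    (hm : D.IsGreatestMinR g m) : n = m :=
  le_antisymm (hm.2 n hn.1) (hn.2 m hm.1)

/-- if `n₀(g) = n₁(g)` then this index attains both minima, and conversely -/
theorem isMinL_and_isMinR_iff (hc : c ≠ 0) (hcu : ¬ IsUnit c) {g : R} {n : ℤ} :
    D.IsMinL g n ∧ D.IsMinR g n ↔ D.IsLeastMinL g n ∧ D.IsGreatestMinR g n := by
  constructor
  · rintro ⟨hL, hR⟩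
    exact ⟨⟨hL, fun m hm => D.le_of_isMinR_of_isMinL hc hcu hm hR⟩,
      ⟨hR, fun m hm => D.le_of_isMinR_of_isMinL hc hcu hL hm⟩⟩
  · rintro ⟨hL, hR⟩
    exact ⟨hL.1, hR.1⟩

/-- **(R2), the unit criterion**: if the index `n` attains both minima (i.e. `n₀(g) = n₁(g) = n`)
then `g = α_n ξ^n (1 + h)` for `n ≥ 0`, resp. `g = b η^{-n} (1 + h)` with `α_n = b c^{-n}` for
`n < 0`, where `h` has no constant coefficient. -/
theorem exists_eq_monomial_mul_one_add (hc : c ≠ 0) {g : R} {n : ℤ}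
    (hL : D.IsMinL g n) (hR : D.IsMinR g n) :
    ∃ (b : W) (h : R), b ≠ 0 ∧ D.coeff h 0 = 0 ∧
      ((0 ≤ n ∧ b = D.coeff g n ∧ g = algebraMap W R b * (D.xi ^ n.toNat * (1 + h))) ∨
       (n < 0 ∧ D.coeff g n = b * c ^ (-n).toNat ∧
          g = algebraMap W R b * (D.eta ^ (-n).toNat * (1 + h)))) := by
  classical
  set a := D.coeff g n with ha
  have ha0 : a ≠ 0 := hL.1
  -- the quotients `q i = α_i / α_n`
  have hdiv : ∀ i, a ∣ D.coeff g i := by
    intro i
    by_cases hi : D.coeff g i = 0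
    · rw [hi]; exact dvd_zero _
    · exact (dvd_iff_ordZ_le ha0 hi).mpr (hL.2 i hi)
  choose q hq using hdiv
  -- divisibility of the quotients on the negative side
  have hqdiv : ∀ j : ℕ, c ^ j ∣ q (n - j) := by
    intro j
    by_cases hi : D.coeff g (n - j) = 0
    · have : q (n - j) = 0 := by
        have h1 := hq (n - j)
        rw [hi] at h1
        exact (mul_eq_zero.mp h1.symm).resolve_left ha0
      rw [this]; exact dvd_zero _
    · have h1 := hR.2 (n - j) hi
      have h2 : a * c ^ j ∣ D.coeff g (n - j) := by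
        rw [dvd_iff_ordZ_le (mul_ne_zero ha0 (pow_ne_zero j hc)) hi,
          ordZ_mul ha0 (pow_ne_zero j hc), ordZ_pow hc]
        linarith
      rw [hq (n - j)] at h2
      exact (mul_dvd_mul_iff_left ha0).mp h2
  obtain ⟨h, hh⟩ := D.surj (fun i => if i = 0 then 0 else q (n + i)) (by
    intro j
    by_cases hj : (-(j : ℤ)) = 0
    · simp only [hj, if_true]; exact dvd_zero _
    · simp only [hj, if_false]
      have := hqdiv j
      rwa [sub_eq_add_neg] at this)
  have hh0 : D.coeff h 0 = 0 := by rw [hh]; simp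
  have hcoeff1 : ∀ i : ℤ, a * D.coeff (1 + h) i = D.coeff g (n + i) := by
    intro i
    rw [D.coeff_add, D.coeff_one, hh]
    by_cases hi : i = 0
    · subst hi; simp [ha]
    · simp only [hi, if_false, zero_add]
      exact (hq (n + i)).symm
  rcases le_or_gt 0 n with hn | hn
  · refine ⟨a, h, ha0, hh0, Or.inl ⟨hn, rfl, ?_⟩⟩
    apply D.ext
    funext i
    rw [D.coeff_smul, D.coeff_xi_pow_mul, hcoeff1]
    congr 1
    rw [Int.toNat_of_nonneg hn]
    ring
  · obtain ⟨b, hb⟩ := D.dvd_coeff g (-n).toNat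
    have hnn : (-(((-n).toNat : ℕ) : ℤ)) = n := by omega
    rw [hnn] at hb
    have hb' : a = b * c ^ (-n).toNat := by rw [ha, hb, mul_comm]
    have hb0 : b ≠ 0 := by
      rintro rfl
      exact ha0 (by rw [hb', zero_mul])
    refine ⟨b, h, hb0, hh0, Or.inr ⟨hn, hb', ?_⟩⟩
    apply D.ext
    funext i
    rw [D.coeff_smul, D.coeff_eta_pow_mul, ← mul_assoc, ← hb', hcoeff1]
    congr 1
    have : (((-n).toNat : ℕ) : ℤ) = -n := by omega
    rw [this]
    ring

/-- **(R2)** with the conclusion that `g` is a constant times a monomial times a unit, when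
`ξ, η` lie in the Jacobson radical of `R`. -/
theorem exists_eq_monomial_mul_unit (hc : c ≠ 0)
    (hxi : D.xi ∈ Ideal.jacobson (⊥ : Ideal R)) (heta : D.eta ∈ Ideal.jacobson (⊥ : Ideal R))
    {g : R} {n : ℤ} (hL : D.IsMinL g n) (hR : D.IsMinR g n) :
    ∃ (b : W) (u : Rˣ), b ≠ 0 ∧
      ((0 ≤ n ∧ g = algebraMap W R b * (D.xi ^ n.toNat * u)) ∨
       (n < 0 ∧ g = algebraMap W R b * (D.eta ^ (-n).toNat * u))) := by
  obtain ⟨b, h, hb0, hh0, H⟩ := D.exists_eq_monomial_mul_one_add hc hL hR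
  obtain ⟨u, hu⟩ := D.isUnit_one_add hxi heta hh0
  refine ⟨b, u, hb0, ?_⟩
  rcases H with ⟨hn, -, hg⟩ | ⟨hn, -, hg⟩
  · exact Or.inl ⟨hn, by rw [hu]; exact hg⟩
  · exact Or.inr ⟨hn, by rw [hu]; exact hg⟩

/-! ### (R3): linear factors -/

omit [IsDomain W] [IsDiscreteValuationRing W] in
theorem coeff_xi_sub (z : W) (i : ℤ) :
    D.coeff (D.xi - algebraMap W R z) i = (if i = 1 then 1 else 0) - (if i = 0 then z else 0) := by
  rw [D.coeff_sub, D.coeff_xi, D.coeff_algebraMap]

/-- **(R3)**: `n₀(ξ - z) = 1` for a nonunit `z` -/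
theorem isLeastMinL_xi_sub {z : W} (hz : ¬ IsUnit z) :
    D.IsLeastMinL (D.xi - algebraMap W R z) 1 := by
  have h1 : D.coeff (D.xi - algebraMap W R z) 1 = 1 := by
    rw [D.coeff_xi_sub]; simp
  refine ⟨⟨by rw [h1]; exact one_ne_zero, fun i _ => by rw [h1, ordZ_one]; exact ordZ_nonneg _⟩,
    fun m hm => ?_⟩
  by_contra hlt
  push Not at hlt
  have hm1 := hm.1
  have hm2 := hm.2 1 (by rw [h1]; exact one_ne_zero)
  rw [h1, ordZ_one] at hm2
  rw [D.coeff_xi_sub] at hm1 hm2
  have hne1 : m ≠ 1 := by omega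
  simp only [hne1, if_false, zero_sub] at hm1 hm2
  by_cases hm0 : m = 0
  · simp only [hm0, if_true] at hm1 hm2
    rw [ordZ_neg] at hm2
    have hz0 : z ≠ 0 := by
      rintro rfl
      exact hm1 neg_zero
    have := one_le_ordZ hz0 hz
    omega
  · simp only [hm0, if_false, neg_zero] at hm1
    exact hm1 rfl

/-- **(R3)**: `n₁(ξ - z) = 0` for `z ≠ 0` with `v(z) < v(c)` -/
theorem isGreatestMinR_xi_sub {z : W} (hz0 : z ≠ 0) (hz : ordZ z < ordZ c) :
    D.IsGreatestMinR (D.xi - algebraMap W R z) 0 := by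
  have h0 : D.coeff (D.xi - algebraMap W R z) 0 = -z := by
    rw [D.coeff_xi_sub]; simp
  have h1 : D.coeff (D.xi - algebraMap W R z) 1 = 1 := by
    rw [D.coeff_xi_sub]; simp
  have hsupp : ∀ i, D.coeff (D.xi - algebraMap W R z) i ≠ 0 → i = 0 ∨ i = 1 := by
    intro i hi
    by_contra hcon
    push Not at hcon
    rw [D.coeff_xi_sub] at hi
    simp only [hcon.1, hcon.2, if_false, sub_zero] at hi
    exact hi rfl
  refine ⟨⟨by rw [h0]; exact neg_ne_zero.mpr hz0, fun i hi => ?_⟩, fun m hm => ?_⟩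
  · rcases hsupp i hi with rfl | rfl
    · exact le_rfl
    · rw [h0, h1, ordZ_neg, ordZ_one]
      linarith
  · rcases hsupp m hm.1 with rfl | rfl
    · exact le_rfl
    · exfalso
      have := hm.2 0 (by rw [h0]; exact neg_ne_zero.mpr hz0)
      rw [h0, h1, ordZ_neg, ordZ_one] at this
      linarith

end Newton

/-! ### division by a linear factor at a `W`-point -/

section Division

variable {W : Type*} [CommRing W] {c : W} {R : Type*} [CommRing R] [Algebra W R]
  (D : NodeCoeff c R)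

/-- **division by `ξ - z`**: let `ev : R → W` be a `W`-point of `R` (a ring homomorphism which is
the identity on constants), `z := ev ξ`.  If `ev g = 0` then `z g = (ξ - z) g₁` for some `g₁ ∈ R`.
(One cannot divide `g` itself: the divisor of `ξ - z` contains the second branch with
multiplicity `v(z)`.)  No completeness is needed: the coefficients of `g₁` are values of `ev` on
tails of `g`. -/
theorem exists_mul_eq_of_eval_eq_zero (ev : R →+* W) (hev : ∀ w, ev (algebraMap W R w) = w)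
    {g : R} (hg : ev g = 0) :
    ∃ g₁ : R, algebraMap W R (ev D.xi) * g = (D.xi - algebraMap W R (ev D.xi)) * g₁ := by
  classical
  set z := ev D.xi with hz
  -- `α_{-l} = c^l r_l`
  have hr : ∀ l : ℕ, ∃ r : W, D.coeff g (-(l : ℤ)) = c ^ l * r := fun l => D.dvd_coeff g l
  choose r hr using hr
  -- the positive tails `P k = ∑_{i ≥ 1} α_{i+k} ξ^i`
  have hP : ∀ k : ℕ, ∃ P : R, D.coeff P = fun i : ℤ => if 1 ≤ i then D.coeff g (i + k) else 0 := by
    intro k
    apply D.surj
    intro j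
    have : ¬ (1 : ℤ) ≤ -(j : ℤ) := by omega
    simp only [this, if_false]
    exact dvd_zero _
  choose P hP using hP
  -- the negative tails `M j = ∑_{m ≥ 0} b_{m+j} η^m`, so that `c^j M j = ∑_{i ≤ 0} α_{i-j} ξ^i`
  have hM : ∀ j : ℕ, ∃ M : R,
      D.coeff M = fun i : ℤ => if i ≤ 0 then c ^ (-i).toNat * r ((-i).toNat + j) else 0 := by
    intro j
    apply D.surj
    intro m
    have : -(m : ℤ) ≤ 0 := by omega
    simp only [this, if_true, neg_neg, Int.toNat_natCast]
    exact Dvd.intro _ rfl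
  choose M hM using hM
  -- `g = M 0 + P 0`
  have hg0 : g = M 0 + P 0 := by
    apply D.ext
    funext i
    rw [D.coeff_add, hM, hP]
    rcases le_or_gt i 0 with hi | hi
    · have h1 : ¬ (1 : ℤ) ≤ i := by omega
      simp only [hi, if_true, h1, if_false, add_zero]
      obtain ⟨l, rfl⟩ : ∃ l : ℕ, i = -(l : ℤ) := ⟨(-i).toNat, by omega⟩
      rw [hr l]
      simp
    · have h1 : (1 : ℤ) ≤ i := by omega
      have h2 : ¬ i ≤ 0 := by omega
      simp only [h2, if_false, h1, if_true, zero_add]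
      simp
  have hev0 : ev (P 0) = -ev (M 0) := by
    rw [hg0, map_add] at hg
    exact eq_neg_of_add_eq_zero_right hg
  -- the recursions
  have hPrec : ∀ k : ℕ, P k = algebraMap W R (D.coeff g ((k : ℤ) + 1)) * D.xi + D.xi * P (k + 1) := by
    intro k
    apply D.ext
    funext l
    rw [D.coeff_add, D.coeff_smul, D.coeff_xi, D.coeff_xi_mul, hP, hP]
    rcases lt_trichotomy l 1 with hl | hl | hl
    · have h1 : ¬ (1 : ℤ) ≤ l := by omega
      have h2 : ¬ (1 : ℤ) ≤ l - 1 := by omega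
      have h3 : l ≠ 1 := by omega
      simp [h1, h2, h3]
    · subst hl
      have h2 : ¬ (1 : ℤ) ≤ 1 - 1 := by omega
      simp only [le_refl, if_true, h2, if_false, add_zero, mul_one]
      congr 1
      ring
    · have h1 : (1 : ℤ) ≤ l := by omega
      have h2 : (1 : ℤ) ≤ l - 1 := by omega
      have h3 : l ≠ 1 := by omega
      simp only [h1, if_true, h2, h3, if_false, mul_zero, zero_add]
      congr 1
      push_cast
      ring
  have hMrec : ∀ j : ℕ, D.xi * (algebraMap W R (c ^ j) * M j) =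
      algebraMap W R (c ^ (j + 1)) * M (j + 1) + algebraMap W R (D.coeff g (-(j : ℤ))) * D.xi := by
    intro j
    apply D.ext
    funext l
    rw [D.coeff_xi_mul, D.coeff_smul, D.coeff_add, D.coeff_smul, D.coeff_smul, D.coeff_xi, hM, hM]
    rcases lt_trichotomy l 1 with hl | hl | hl
    · have h1 : l - 1 ≤ 0 := by omega
      have h2 : l ≤ 0 := by omega
      have h3 : l ≠ 1 := by omega
      simp only [h1, if_true, h2, h3, if_false, mul_zero, add_zero]
      obtain ⟨m, rfl⟩ : ∃ m : ℕ, l = -(m : ℤ) := ⟨(-l).toNat, by omega⟩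
      have e1 : (-(-(m : ℤ) - 1)).toNat = m + 1 := by omega
      have e2 : (-(-(m : ℤ))).toNat = m := by omega
      rw [e1, e2]
      have e3 : m + 1 + j = m + (j + 1) := by ring
      rw [e3]
      ring
    · subst hl
      have h1 : (1 : ℤ) - 1 ≤ 0 := by omega
      have h2 : ¬ (1 : ℤ) ≤ 0 := by omega
      simp only [h1, if_true, h2, if_false, mul_zero, zero_add, mul_one]
      have e1 : (-((1 : ℤ) - 1)).toNat = 0 := by omega
      rw [e1, hr j]
      simp
    · have h1 : ¬ l - 1 ≤ 0 := by omega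
      have h2 : ¬ l ≤ 0 := by omega
      have h3 : l ≠ 1 := by omega
      simp [h1, h2, h3]
  -- the coefficients of the quotient
  obtain ⟨g₁, hg₁⟩ := D.surj
    (fun i : ℤ => if 0 ≤ i then ev (P i.toNat) else -(c ^ (-i).toNat * ev (M (-i).toNat))) (by
    intro j
    by_cases hj : j = 0
    · subst hj; simp
    · have : ¬ (0 : ℤ) ≤ -(j : ℤ) := by omega
      simp only [this, if_false, neg_neg, Int.toNat_natCast]
      exact (Dvd.intro _ rfl).neg_right)
  refine ⟨g₁, ?_⟩
  apply D.ext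
  funext i
  rw [D.coeff_smul, sub_mul, D.coeff_sub, D.coeff_xi_mul, D.coeff_smul, hg₁]
  rcases lt_trichotomy i 0 with hi | hi | hi
  · -- `i = -(j+1)`
    obtain ⟨j, rfl⟩ : ∃ j : ℕ, i = -((j : ℤ) + 1) := ⟨(-i - 1).toNat, by omega⟩
    have h1 : ¬ (0 : ℤ) ≤ -((j : ℤ) + 1) - 1 := by omega
    have h2 : ¬ (0 : ℤ) ≤ -((j : ℤ) + 1) := by omega
    simp only [h1, h2, if_false]
    have e1 : (-(-((j : ℤ) + 1) - 1)).toNat = j + 2 := by omega
    have e2 : (-(-((j : ℤ) + 1))).toNat = j + 1 := by omega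
    rw [e1, e2]
    have h3 := congrArg ev (hMrec (j + 1))
    simp only [map_mul, map_add, hev] at h3
    have e3 : (-(((j + 1 : ℕ) : ℤ))) = -((j : ℤ) + 1) := by push_cast; ring
    rw [e3] at h3
    rw [← hz] at h3
    linear_combination -h3
  · subst hi
    have h1 : ¬ (0 : ℤ) ≤ 0 - 1 := by omega
    simp only [h1, if_false, le_refl, if_true, Int.toNat_zero]
    have e1 : (-((0 : ℤ) - 1)).toNat = 1 := by omega
    rw [e1, hev0]
    have h3 := congrArg ev (hMrec 0)
    simp only [map_mul, map_add, hev] at h3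
    rw [← hz] at h3
    simp only [pow_zero, one_mul, Nat.cast_zero, neg_zero, zero_add, pow_one] at h3
    rw [pow_one]
    linear_combination -h3
  · obtain ⟨k, rfl⟩ : ∃ k : ℕ, i = (k : ℤ) + 1 := ⟨(i - 1).toNat, by omega⟩
    have h1 : (0 : ℤ) ≤ (k : ℤ) + 1 - 1 := by omega
    have h2 : (0 : ℤ) ≤ (k : ℤ) + 1 := by omega
    simp only [h1, h2, if_true]
    have e1 : ((k : ℤ) + 1 - 1).toNat = k := by omega
    have e2 : ((k : ℤ) + 1).toNat = k + 1 := by omega
    rw [e1, e2]
    have h3 := congrArg ev (hPrec k)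
    simp only [map_mul, map_add, hev] at h3
    rw [← hz] at h3
    linear_combination -h3

end Division

end NodeCoeff

end Fermat.Agent.S34.Annulus.Unit
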