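import Mathlib
import Fermat.Agent.S34.NodeRing
import Fermat.Agent.S34.Annulus.Unit

/-!
# PROJECT U (S34): the node ring `W[[X, Y]] / (X Y - c)` carries a `NodeCoeff` structure

The adapter between `S34/NodeRing.lean` (coefficient bijection `(a, b) ↦ ∑ a i ξ ^ i + ∑ b j η ^ (j+1)`)
and `S34/Annulus/Unit.lean` (two-sided coefficient sequences `coeff g : ℤ → W`,
`coeff g i = a i` for `i ≥ 0`, `coeff g (-(j + 1)) = b j * c ^ (j + 1)`): for a domain `W`,
`I`-adically complete, `c ∈ I`, `c ≠ 0`, **`nodeCoeff hc hc0 : NodeCoeff c (NodeRing W c)`**.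
So all results of `Annulus/Unit` ((R1) concavity, (R2) unit criterion, (R3) linear factors) hold
in the node ring.
-/

set_option autoImplicit false

namespace Fermat.Agent.S34.Annulus.NodeRingCoeff

open Fermat.Agent.S34.NodeRing Fermat.Agent.S34.Annulus.Unit

variable {W : Type*} [CommRing W]

/-- the two-sided coefficient sequence of `∑ a i ξ ^ i + ∑ b j η ^ (j + 1)` -/
def twoSided (c : W) (a b : ℕ → W) (i : ℤ) : W :=
  if 0 ≤ i then a i.toNat else b ((-i).toNat - 1) * c ^ (-i).toNat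

theorem int_cases (i : ℤ) : (∃ n : ℕ, i = n) ∨ ∃ j : ℕ, i = -((j : ℤ) + 1) := by
  rcases le_or_gt 0 i with h | h
  · exact Or.inl ⟨i.toNat, (Int.toNat_of_nonneg h).symm⟩
  · refine Or.inr ⟨(-i - 1).toNat, ?_⟩
    have : ((-i - 1).toNat : ℤ) = -i - 1 := Int.toNat_of_nonneg (by omega)
    rw [this]; ring

@[simp] theorem twoSided_natCast (c : W) (a b : ℕ → W) (n : ℕ) : twoSided c a b (n : ℤ) = a n := by
  unfold twoSided
  rw [if_pos (Int.natCast_nonneg n), Int.toNat_natCast]

@[simp] theorem twoSided_neg_succ (c : W) (a b : ℕ → W) (j : ℕ) :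
    twoSided c a b (-((j : ℤ) + 1)) = b j * c ^ (j + 1) := by
  unfold twoSided
  have h1 : ¬ (0 : ℤ) ≤ -((j : ℤ) + 1) := by omega
  have h2 : (-(-((j : ℤ) + 1))).toNat = j + 1 := by
    rw [neg_neg]; exact_mod_cast Int.toNat_natCast (j + 1)
  rw [if_neg h1, h2, Nat.add_sub_cancel]

theorem twoSided_xi (c : W) (a b : ℕ → W) (i : ℤ) :
    twoSided c (xiA c a b) (xiB c b) i = twoSided c a b (i - 1) := by
  rcases int_cases i with ⟨n, rfl⟩ | ⟨j, rfl⟩
  · rcases n with _ | n
    · have h : ((0 : ℕ) : ℤ) - 1 = -(((0 : ℕ) : ℤ) + 1) := by simp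
      rw [h, twoSided_natCast, twoSided_neg_succ]
      simp [xiA, mul_comm]
    · have h : ((n + 1 : ℕ) : ℤ) - 1 = (n : ℤ) := by push_cast; ring
      rw [h, twoSided_natCast, twoSided_natCast]
      simp [xiA]
  · have h : -((j : ℤ) + 1) - 1 = -(((j + 1 : ℕ) : ℤ) + 1) := by push_cast; ring
    rw [h, twoSided_neg_succ, twoSided_neg_succ]
    simp only [xiB]
    ring

theorem twoSided_eta (c : W) (a b : ℕ → W) (i : ℤ) :
    twoSided c (etaA c a) (etaB a b) i = c * twoSided c a b (i + 1) := by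
  rcases int_cases i with ⟨n, rfl⟩ | ⟨j, rfl⟩
  · have h : (n : ℤ) + 1 = ((n + 1 : ℕ) : ℤ) := by push_cast; ring
    rw [h, twoSided_natCast, twoSided_natCast]
    simp [etaA]
  · rcases j with _ | j
    · have h : -(((0 : ℕ) : ℤ) + 1) + 1 = ((0 : ℕ) : ℤ) := by simp
      rw [h, twoSided_neg_succ, twoSided_natCast]
      simp [etaB, mul_comm]
    · have h : -(((j + 1 : ℕ) : ℤ) + 1) + 1 = -((j : ℤ) + 1) := by push_cast; ring
      rw [h, twoSided_neg_succ, twoSided_neg_succ]
      simp only [etaB, Nat.add_sub_cancel, if_neg (Nat.succ_ne_zero j)]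
      ring

theorem twoSided_add (c : W) (a b a' b' : ℕ → W) (i : ℤ) :
    twoSided c (a + a') (b + b') i = twoSided c a b i + twoSided c a' b' i := by
  rcases int_cases i with ⟨n, rfl⟩ | ⟨j, rfl⟩
  · simp
  · rw [twoSided_neg_succ, twoSided_neg_succ, twoSided_neg_succ, Pi.add_apply, add_mul]

theorem twoSided_smul (c w : W) (a b : ℕ → W) (i : ℤ) :
    twoSided c (w • a) (w • b) i = w * twoSided c a b i := by
  rcases int_cases i with ⟨n, rfl⟩ | ⟨j, rfl⟩
  · simp
  · rw [twoSided_neg_succ, twoSided_neg_succ, Pi.smul_apply, smul_eq_mul, mul_assoc]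

section Domain

variable {I : Ideal W} [IsAdicComplete I W] {c : W}

/-- the coefficient pair of an element of the node ring -/
noncomputable def pair (hc : c ∈ I) (g : NodeRing W c) : (ℕ → W) × (ℕ → W) :=
  (coeffEquiv hc).symm g

theorem pair_ofCoeffs (hc : c ∈ I) (a b : ℕ → W) : pair hc (ofCoeffs c a b) = (a, b) := by
  unfold pair
  rw [LinearEquiv.symm_apply_eq]
  rfl

theorem ofCoeffs_pair (hc : c ∈ I) (g : NodeRing W c) :
    ofCoeffs c (pair hc g).1 (pair hc g).2 = g :=
  ofCoeffs_coeffEquiv_symm hc g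

variable [IsDomain W]

/-- **the node ring carries a `NodeCoeff` structure** -/
noncomputable def nodeCoeff (hc : c ∈ I) (hc0 : c ≠ 0) : NodeCoeff c (NodeRing W c) where
  xi := xi c
  eta := eta c
  mul_eq := xi_mul_eta c
  coeff g i := twoSided c (pair hc g).1 (pair hc g).2 i
  coeff_add g g' i := by
    have h : pair hc (g + g') = pair hc g + pair hc g' := map_add _ _ _
    rw [h, Prod.fst_add, Prod.snd_add, twoSided_add]
  coeff_smul w g i := by
    have h : pair hc (algebraMap W (NodeRing W c) w * g) = w • pair hc g := by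
      rw [← Algebra.smul_def]
      exact map_smul _ _ _
    rw [h, Prod.smul_fst, Prod.smul_snd, twoSided_smul]
  coeff_one i := by
    have h : pair hc (1 : NodeRing W c) = (Pi.single 0 1, 0) := by
      rw [← pair_ofCoeffs hc, ← algebraMap_eq_ofCoeffs, map_one]
    rw [h]
    rcases int_cases i with ⟨n, rfl⟩ | ⟨j, rfl⟩
    · rw [twoSided_natCast]
      rcases n with _ | n
      · simp
      · rw [if_neg (by omega)]
        simp
    · rw [twoSided_neg_succ, if_neg (by omega)]
      simp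
  coeff_xi_mul g i := by
    have h : pair hc (xi c * g) = (xiA c (pair hc g).1 (pair hc g).2, xiB c (pair hc g).2) := by
      conv_lhs => rw [← ofCoeffs_pair hc g, xi_mul_ofCoeffs]
      exact pair_ofCoeffs hc _ _
    rw [h]
    exact twoSided_xi c _ _ i
  coeff_eta_mul g i := by
    have h : pair hc (eta c * g) = (etaA c (pair hc g).1, etaB (pair hc g).1 (pair hc g).2) := by
      conv_lhs => rw [← ofCoeffs_pair hc g, eta_mul_ofCoeffs]
      exact pair_ofCoeffs hc _ _
    rw [h]
    exact twoSided_eta c _ _ i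
  dvd_coeff g j := by
    rcases j with _ | j
    · simp
    · have h : -(((j + 1 : ℕ) : ℤ)) = -((j : ℤ) + 1) := by push_cast; ring
      rw [h, twoSided_neg_succ]
      exact Dvd.intro_left _ rfl
  ext g g' h := by
    have h1 : (pair hc g).1 = (pair hc g').1 := by
      funext n
      have := congrFun h (n : ℤ)
      simpa using this
    have h2 : (pair hc g).2 = (pair hc g').2 := by
      funext j
      have := congrFun h (-((j : ℤ) + 1))
      simp only [twoSided_neg_succ] at this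
      exact mul_right_cancel₀ (pow_ne_zero _ hc0) this
    rw [← ofCoeffs_pair hc g, ← ofCoeffs_pair hc g', h1, h2]
  surj α hα := by
    have hq : ∀ j : ℕ, ∃ r : W, α (-((j : ℤ) + 1)) = r * c ^ (j + 1) := by
      intro j
      obtain ⟨r, hr⟩ := hα (j + 1)
      refine ⟨r, ?_⟩
      have h : -((j : ℤ) + 1) = -(((j + 1 : ℕ) : ℤ)) := by push_cast; ring
      rw [h, hr, mul_comm]
    choose r hr using hq
    refine ⟨ofCoeffs c (fun n => α n) r, ?_⟩
    funext i
    rw [pair_ofCoeffs]
    rcases int_cases i with ⟨n, rfl⟩ | ⟨j, rfl⟩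
    · simp
    · rw [twoSided_neg_succ, hr]

@[simp] theorem nodeCoeff_xi (hc : c ∈ I) (hc0 : c ≠ 0) : (nodeCoeff hc hc0).xi = xi c := rfl

@[simp] theorem nodeCoeff_eta (hc : c ∈ I) (hc0 : c ≠ 0) : (nodeCoeff hc hc0).eta = eta c := rfl

theorem nodeCoeff_coeff_ofCoeffs_natCast (hc : c ∈ I) (hc0 : c ≠ 0) (a b : ℕ → W) (n : ℕ) :
    (nodeCoeff hc hc0).coeff (ofCoeffs c a b) (n : ℤ) = a n := by
  show twoSided c (pair hc (ofCoeffs c a b)).1 (pair hc (ofCoeffs c a b)).2 (n : ℤ) = a n
  rw [pair_ofCoeffs, twoSided_natCast]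

theorem nodeCoeff_coeff_ofCoeffs_neg_succ (hc : c ∈ I) (hc0 : c ≠ 0) (a b : ℕ → W) (j : ℕ) :
    (nodeCoeff hc hc0).coeff (ofCoeffs c a b) (-((j : ℤ) + 1)) = b j * c ^ (j + 1) := by
  show twoSided c (pair hc (ofCoeffs c a b)).1 (pair hc (ofCoeffs c a b)).2 (-((j : ℤ) + 1)) =
    b j * c ^ (j + 1)
  rw [pair_ofCoeffs, twoSided_neg_succ]

end Domain

/-! ### `ξ`, `η` lie in the Jacobson radical of the node ring -/

section Jacobson

variable (c : W)

theorem isUnit_mk_of_constantCoeff {f : MvPowerSeries (Fin 2) W}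
    (hf : IsUnit (MvPowerSeries.constantCoeff f)) : IsUnit (mk c f) :=
  (MvPowerSeries.isUnit_iff_constantCoeff.mpr hf).map (mk c)

theorem xi_mem_jacobson : xi c ∈ Ideal.jacobson (⊥ : Ideal (NodeRing W c)) := by
  rw [Ideal.mem_jacobson_bot]
  intro y
  obtain ⟨f, rfl⟩ := mk_surjective c y
  have h : xi c * mk c f + 1 = mk c (MvPowerSeries.X 0 * f + 1) := by
    rw [map_add, map_mul, map_one]; rfl
  rw [h]
  apply isUnit_mk_of_constantCoeff
  simp

theorem eta_mem_jacobson : eta c ∈ Ideal.jacobson (⊥ : Ideal (NodeRing W c)) := by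
  rw [Ideal.mem_jacobson_bot]
  intro y
  obtain ⟨f, rfl⟩ := mk_surjective c y
  have h : eta c * mk c f + 1 = mk c (MvPowerSeries.X 1 * f + 1) := by
    rw [map_add, map_mul, map_one]; rfl
  rw [h]
  apply isUnit_mk_of_constantCoeff
  simp

end Jacobson

/-! ### the unit criterion (R2) in the node ring -/

section DVR

variable [IsDomain W] [IsDiscreteValuationRing W] {I : Ideal W} [IsAdicComplete I W] {c : W}

/-- **(R2) in the node ring**: if one index `n` attains both end minima of the Newton polygon of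
`g`, then `g` is a constant times `ξ ^ n` (resp. `η ^ (-n)`) times a unit of the node ring. -/
theorem exists_eq_monomial_mul_unit (hc : c ∈ I) (hc0 : c ≠ 0) {g : NodeRing W c} {n : ℤ}
    (hL : (nodeCoeff hc hc0).IsMinL g n) (hR : (nodeCoeff hc hc0).IsMinR g n) :
    ∃ (b : W) (u : (NodeRing W c)ˣ), b ≠ 0 ∧
      ((0 ≤ n ∧ g = algebraMap W (NodeRing W c) b * (xi c ^ n.toNat * u)) ∨
       (n < 0 ∧ g = algebraMap W (NodeRing W c) b * (eta c ^ (-n).toNat * u))) :=
  (nodeCoeff hc hc0).exists_eq_monomial_mul_unit hc0 (xi_mem_jacobson c) (eta_mem_jacobson c)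
    hL hR

end DVR

end Fermat.Agent.S34.Annulus.NodeRingCoeff
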